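import Fermat.Agent.S24.H624.Laurent

/-!
# S29 / BR / NORM (helper452) — precomposition with Möbius maps on `MerH`

`precompGL g hg : holoRing ≃+* holoRing`, `f ↦ f ∘ (g • ·)` for `g ∈ GL₂(ℝ)` with `det g > 0`, and
its extension `merGL g hg : MerH ≃+* MerH` to `MerH = Frac holoRing`.
Rules: `merGL (g * h) = merGL h ∘ merGL g`, `merGL γ = (γ⁻¹ • ·)` for `γ ∈ SL(2,ℤ)`.
-/

set_option autoImplicit false

noncomputable section

open UpperHalfPlane
open scoped MatrixGroups

namespace Fermat.Agent.S29.H452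

open Fermat.Agent.S24.H624

theorem det_inv_pos {g : GL (Fin 2) ℝ} (hg : 0 < g.det.val) : 0 < (g⁻¹).det.val := by
  rw [map_inv, Units.val_inv_eq_inv_val]
  exact inv_pos.mpr hg

theorem det_mul_pos {g h : GL (Fin 2) ℝ} (hg : 0 < g.det.val) (hh : 0 < h.det.val) :
    0 < (g * h).det.val := by
  rw [map_mul, Units.val_mul]
  exact mul_pos hg hh

/-- Precomposition with the Möbius map of `g` as a ring endomorphism of `holoRing`. -/
def precompGLHom (g : GL (Fin 2) ℝ) (hg : 0 < g.det.val) : holoRing →+* holoRing where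
  toFun f := ⟨fun τ => (f : ℍ → ℂ) (g • τ), mdiff_comp_smul hg f.2⟩
  map_one' := rfl
  map_mul' _ _ := rfl
  map_zero' := rfl
  map_add' _ _ := rfl

@[simp] theorem precompGLHom_apply (g : GL (Fin 2) ℝ) (hg : 0 < g.det.val) (f : holoRing) (τ : ℍ) :
    ((precompGLHom g hg f : holoRing) : ℍ → ℂ) τ = (f : ℍ → ℂ) (g • τ) := rfl

theorem precompGLHom_mul (g h : GL (Fin 2) ℝ) (hg : 0 < g.det.val) (hh : 0 < h.det.val)
    (f : holoRing) :
    precompGLHom (g * h) (det_mul_pos hg hh) f = precompGLHom h hh (precompGLHom g hg f) := by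
  apply Subtype.ext
  funext τ
  simp [mul_smul]

theorem precompGLHom_one (f : holoRing) :
    precompGLHom 1 (by simp) f = f := by
  apply Subtype.ext
  funext τ
  simp

theorem precompGLHom_congr {g h : GL (Fin 2) ℝ} (e : g = h) (hg : 0 < g.det.val)
    (hh : 0 < h.det.val) : precompGLHom g hg = precompGLHom h hh := by
  subst e; rfl

theorem precompGLHom_inv_right (g : GL (Fin 2) ℝ) (hg : 0 < g.det.val) (f : holoRing) :
    precompGLHom g hg (precompGLHom g⁻¹ (det_inv_pos hg) f) = f := by
  apply Subtype.ext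
  funext τ
  simp

theorem precompGLHom_inv_left (g : GL (Fin 2) ℝ) (hg : 0 < g.det.val) (f : holoRing) :
    precompGLHom g⁻¹ (det_inv_pos hg) (precompGLHom g hg f) = f := by
  apply Subtype.ext
  funext τ
  simp

/-- Precomposition with the Möbius map of `g` as a ring automorphism of `holoRing`. -/
def precompGL (g : GL (Fin 2) ℝ) (hg : 0 < g.det.val) : holoRing ≃+* holoRing :=
  RingEquiv.ofRingHom (precompGLHom g hg) (precompGLHom g⁻¹ (det_inv_pos hg))
    (RingHom.ext fun f => precompGLHom_inv_right g hg f)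
    (RingHom.ext fun f => precompGLHom_inv_left g hg f)

@[simp] theorem precompGL_apply (g : GL (Fin 2) ℝ) (hg : 0 < g.det.val) (f : holoRing) (τ : ℍ) :
    ((precompGL g hg f : holoRing) : ℍ → ℂ) τ = (f : ℍ → ℂ) (g • τ) := rfl

/-- Precomposition with the Möbius map of `g` on meromorphic functions. -/
def merGL (g : GL (Fin 2) ℝ) (hg : 0 < g.det.val) : MerH ≃+* MerH :=
  IsFractionRing.ringEquivOfRingEquiv (precompGL g hg)

@[simp] theorem merGL_algebraMap (g : GL (Fin 2) ℝ) (hg : 0 < g.det.val) (f : holoRing) :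
    merGL g hg (algebraMap holoRing MerH f) = algebraMap holoRing MerH (precompGL g hg f) :=
  IsFractionRing.ringEquivOfRingEquiv_algebraMap _ f

/-- Two ring homs out of `MerH` agreeing on holomorphic functions are equal. -/
theorem merH_ringHom_ext {L : Type*} [Semiring L] {φ ψ : MerH →+* L}
    (h : ∀ f : holoRing, φ (algebraMap holoRing MerH f) = ψ (algebraMap holoRing MerH f)) :
    φ = ψ :=
  IsLocalization.ringHom_ext (nonZeroDivisors holoRing) (RingHom.ext h)

theorem merGL_mul (g h : GL (Fin 2) ℝ) (hg : 0 < g.det.val) (hh : 0 < h.det.val) (F : MerH) :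
    merGL (g * h) (det_mul_pos hg hh) F = merGL h hh (merGL g hg F) := by
  have : (merGL (g * h) (det_mul_pos hg hh) : MerH →+* MerH)
      = ((merGL h hh : MerH →+* MerH).comp (merGL g hg : MerH →+* MerH)) := by
    apply merH_ringHom_ext
    intro f
    simp only [RingHom.coe_coe, RingHom.comp_apply, merGL_algebraMap]
    congr 1
    exact precompGLHom_mul g h hg hh f
  exact RingHom.congr_fun this F

theorem merGL_congr {g h : GL (Fin 2) ℝ} (e : g = h) (hg : 0 < g.det.val)
    (hh : 0 < h.det.val) : merGL g hg = merGL h hh := by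
  subst e; rfl

/-- For `γ ∈ SL(2,ℤ)`, `merGL γ` is the action of `γ⁻¹`. -/
theorem merGL_SL (γ : SL(2, ℤ)) (F : MerH) :
    merGL (γ : GL (Fin 2) ℝ) (det_coe_SL_pos γ) F = γ⁻¹ • F := by
  have : (merGL (γ : GL (Fin 2) ℝ) (det_coe_SL_pos γ) : MerH →+* MerH)
      = (merSL γ⁻¹ : MerH →+* MerH) := by
    apply merH_ringHom_ext
    intro f
    simp only [RingHom.coe_coe, merGL_algebraMap, merSL_apply, smul_algebraMap_MerH]
    congr 1
    apply Subtype.ext
    funext τ
    rw [smul_holoRing_apply, inv_inv]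
    rfl
  exact RingHom.congr_fun this F

end Fermat.Agent.S29.H452

end
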