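import Fermat.Agent.S24.Deg.H528Hol
import Fermat.Agent.S24.Mod.H997HolBase
import Fermat.Agent.S24.H624.Laurent
import Fermat.Agent.S29.H452.MerGL
import Fermat.Prelude.Def_ModularCurve_HeckeOperator
import Fermat.Prelude.Def_ModularForm_HeckeOperator

/-!
# S29 / BR / NORM (helper452) — the analytic realisation `an N : FF N →+* MerH`

`FF N = ℚ̄(j(q^d) : d ∣ N) ⊆ ℚ̄((q))` (Prelude `modularFunctionFieldBar N`) is realised inside the
field `MerH = Frac(holomorphic functions on ℍ)` of helper624: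
`an N (j(q^d)) = (τ ↦ j(dτ))`, `an N c = ιK c` (S24's fixed embedding `ℚ̄ → ℂ`).

* `an N f` is `Γ₀(N)`-invariant (`an_smul_of_mem`);
* `merGL g hg : MerH ≃+* MerH` is precomposition with the Möbius map of `g ∈ GL₂(ℝ)`, `det g > 0`;
* two ring homs out of `FF N` agreeing on constants and on the `j(q^d)` are equal (`ringHom_ext_FF`).
-/

set_option autoImplicit false

noncomputable section

open ModularCurve UpperHalfPlane ModularForm
open scoped MatrixGroups

namespace Fermat.Agent.S29.H452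

open Fermat.Agent.S24 Fermat.Agent.S24.H997 Fermat.Agent.S24.H624 Fermat.Agent.S24.H528

section An

variable (N : ℕ) [NeZero N]

/-- The inclusion of S24's ring `holN N` into the ring of all holomorphic functions on `ℍ`. -/
def holInc : (holBase N).Hol →+* holoRing := (holBase N).toHolo (holBase_isHolo N)

theorem holInc_injective : Function.Injective (holInc N) :=
  (holBase N).toHolo_injective (holBase_isHolo N)

@[simp] theorem holInc_apply (h : (holBase N).Hol) (τ : ℍ) :
    ((holInc N h : holoRing) : ℍ → ℂ) τ = (h : ℍ → ℂ) τ := rfl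

attribute [local instance] isDomain_hol

/-- The induced map on fraction fields. -/
def fracInc : FractionRing (holBase N).Hol →+* MerH :=
  IsFractionRing.lift (g := (algebraMap holoRing MerH).comp (holInc N))
    ((IsFractionRing.injective holoRing MerH).comp (holInc_injective N))

theorem fracInc_algebraMap (h : (holBase N).Hol) :
    fracInc N (algebraMap _ (FractionRing (holBase N).Hol) h)
      = algebraMap holoRing MerH (holInc N h) :=
  IsFractionRing.lift_algebraMap _ h

/-- **The analytic realisation** of the function field of `X₀(N)` over `ℚ̄`. -/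
def an : FF N →+* MerH := (fracInc N).comp (eFrac (holBase N))

theorem an_inclRN (r : RN N) :
    an N (inclRN N r) = algebraMap holoRing MerH (holInc N ((holBase N).bridge r)) := by
  show fracInc N (eFrac (holBase N) (inclRN N r)) = _
  rw [eFrac_inclRN, fracInc_algebraMap]

theorem an_injective : Function.Injective (an N) := (an N).injective

/-- `an N f` is `Γ₀(N)`-invariant. -/
theorem an_smul_of_mem (f : FF N) {g : SL(2, ℤ)} (hg : g ∈ CongruenceSubgroup.Gamma0 N) :
    g • an N f = an N f := by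
  obtain ⟨r, t, -, rfl⟩ := exists_div_inclRN N f
  have key : ∀ r : RN N, g • an N (inclRN N r) = an N (inclRN N r) := by
    intro r
    rw [an_inclRN, smul_algebraMap_MerH]
    congr 1
    have h1 := (holBase N).toHolo_compH (holBase_isHolo N) g⁻¹ ((holBase N).bridge r)
    rw [inv_inv] at h1
    show g • (holBase N).toHolo (holBase_isHolo N) ((holBase N).bridge r) = _
    rw [← h1, (holBase N).compH_bridge_of_mem (inv_mem hg)]
    rfl
  rw [map_div₀, smul_div₀', key, key]

/-! ### Values on the generators and extensionality -/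

/-- The function `τ ↦ j(dτ)` as an element of `MerH`. -/
def JM (d : ℕ) [NeZero d] : MerH :=
  algebraMap holoRing MerH ⟨Jd d, mdiff_Jd (Nat.pos_of_ne_zero (NeZero.ne d))⟩

/-- The generator `j(q^d)` of `FF N`. -/
def jGen (d : ℕ) [NeZero d] (hd : d ∣ N) : FF N := inclRN N (jR N d hd)

omit [NeZero N] in
@[simp] theorem coe_jGen (d : ℕ) [NeZero d] (hd : d ∣ N) :
    ((jGen N d hd : FF N) : LaurentSeries Kbar) = coeffEmb Kbar (qExpand ℚ d jq) := rfl

theorem an_jGen (d : ℕ) [NeZero d] (hd : d ∣ N) : an N (jGen N d hd) = JM d := by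
  rw [jGen, an_inclRN, (holBase N).bridge_jR d hd]
  rfl

theorem an_algebraMap (c : Kbar) :
    an N (algebraMap Kbar (FF N) c) = algebraMap ℂ MerH (ιK c) := by
  have h1 : algebraMap Kbar (FF N) c = inclRN N (algebraMap Kbar (RN N) c) :=
    ((inclRN N).commutes c).symm
  rw [h1, an_inclRN, (holBase N).bridge_algebraMap]
  rfl

omit [NeZero N] in
/-- Two ring homs out of `FF N` that agree on the constants and on the generators `j(q^d)`,
`d ∣ N`, are equal. -/
theorem ringHom_ext_FF {L : Type*} [Field L] {φ ψ : FF N →+* L}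
    (hc : ∀ c : Kbar, φ (algebraMap Kbar (FF N) c) = ψ (algebraMap Kbar (FF N) c))
    (hj : ∀ (d : ℕ) [NeZero d] (hd : d ∣ N), φ (jGen N d hd) = ψ (jGen N d hd)) : φ = ψ := by
  have key : ∀ r : RN N, φ (inclRN N r) = ψ (inclRN N r) := by
    rintro ⟨r, hr⟩
    induction hr using Algebra.adjoin_induction with
    | mem x hx =>
        obtain ⟨y, ⟨d, hne, hd, rfl⟩, rfl⟩ := hx
        exact @hj d hne hd
    | algebraMap c =>
        have : inclRN N (⟨algebraMap Kbar (LaurentSeries Kbar) c,
            Subalgebra.algebraMap_mem _ c⟩ : RN N) = algebraMap Kbar (FF N) c := rfl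
        rw [this]
        exact hc c
    | add x y hx hy ihx ihy =>
        have : inclRN N (⟨x + y, add_mem hx hy⟩ : RN N)
            = inclRN N ⟨x, hx⟩ + inclRN N ⟨y, hy⟩ := rfl
        rw [this, map_add, map_add, ihx, ihy]
    | mul x y hx hy ihx ihy =>
        have : inclRN N (⟨x * y, mul_mem hx hy⟩ : RN N)
            = inclRN N ⟨x, hx⟩ * inclRN N ⟨y, hy⟩ := rfl
        rw [this, map_mul, map_mul, ihx, ihy]
  ext f
  obtain ⟨r, t, -, rfl⟩ := exists_div_inclRN N f
  rw [map_div₀, map_div₀, key, key]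

end An

/-! ### Compatibility with the degeneracy maps `α` (inclusion) and `β` (`q ↦ q^ℓ`) -/

section Degeneracy

variable (N ℓ : ℕ) [NeZero N] [NeZero ℓ]

theorem coeffMap_qExpand_aux {R S : Type*} [CommRing R] [CommRing S] (f : R →+* S) (n : ℕ)
    [NeZero n] (x : LaurentSeries R) : coeffMap f (qExpand R n x) = qExpand S n (coeffMap f x) := by
  ext k
  by_cases hk : (n : ℤ) ∣ k
  · obtain ⟨m, rfl⟩ := hk
    rw [coeffMap_coeff, qExpand_coeff_mul, qExpand_coeff_mul, coeffMap_coeff]
  · rw [coeffMap_coeff, qExpand_coeff_of_not_dvd n _ hk, qExpand_coeff_of_not_dvd n _ hk,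
      map_zero]

theorem alpha_jGen (d : ℕ) [NeZero d] (hd : d ∣ N) :
    heckeAlphaBar Kbar N ℓ (jGen N d hd) = jGen (N * ℓ) d (hd.mul_right ℓ) :=
  Subtype.ext rfl

theorem beta_jGen (d : ℕ) [NeZero d] (hd : d ∣ N) :
    heckeBetaBar Kbar N ℓ (jGen N d hd) = jGen (N * ℓ) (ℓ * d) (by
      rw [mul_comm N ℓ]; exact mul_dvd_mul_left ℓ hd) := by
  apply Subtype.ext
  rw [coe_heckeBetaBar, coe_jGen, coe_jGen]
  show qExpand Kbar ℓ (coeffMap _ (qExpand ℚ d jq)) = coeffMap _ (qExpand ℚ (ℓ * d) jq)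
  rw [← coeffMap_qExpand_aux, qExpand_qExpand]

/-- `an` is compatible with the inclusion `α : FF N → FF (N ℓ)`. -/
theorem an_alpha (f : FF N) : an (N * ℓ) (heckeAlphaBar Kbar N ℓ f) = an N f := by
  have : (an (N * ℓ)).comp (heckeAlphaBar Kbar N ℓ).toRingHom = an N := by
    apply ringHom_ext_FF
    · intro c
      show an (N * ℓ) (heckeAlphaBar Kbar N ℓ (algebraMap Kbar (FF N) c)) = _
      rw [AlgHom.commutes, an_algebraMap, an_algebraMap]
    · intro d _ hd
      show an (N * ℓ) (heckeAlphaBar Kbar N ℓ (jGen N d hd)) = _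
      rw [alpha_jGen, an_jGen, an_jGen]
  exact RingHom.congr_fun this f

theorem det_heckeDiagMatrix_pos : 0 < (heckeDiagMatrix ℓ).det.val := by
  rw [det_heckeDiagMatrix (NeZero.ne ℓ)]
  exact_mod_cast Nat.pos_of_ne_zero (NeZero.ne ℓ)

theorem det_heckeMatrix_pos (j : ℕ) : 0 < (heckeMatrix ℓ j).det.val := by
  rw [det_heckeMatrix (NeZero.ne ℓ)]
  exact_mod_cast Nat.pos_of_ne_zero (NeZero.ne ℓ)

theorem heckeDiagMatrix_smul_coe (τ : ℍ) :
    ((heckeDiagMatrix ℓ • τ : ℍ) : ℂ) = (ℓ : ℂ) * τ := by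
  rw [coe_smul_of_det_pos (det_heckeDiagMatrix_pos ℓ)]
  simp [num, denom, val_heckeDiagMatrix (NeZero.ne ℓ)]

theorem merGL_algebraMap_const (g : GL (Fin 2) ℝ) (hg : 0 < g.det.val) (c : ℂ) :
    merGL g hg (algebraMap ℂ MerH c) = algebraMap ℂ MerH c := by
  rw [IsScalarTower.algebraMap_apply ℂ holoRing MerH, merGL_algebraMap]
  rfl

theorem merGL_JM (d : ℕ) [NeZero d] :
    merGL (heckeDiagMatrix ℓ) (det_heckeDiagMatrix_pos ℓ) (JM d) = JM (ℓ * d) := by
  unfold JM
  rw [merGL_algebraMap]
  congr 1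
  apply Subtype.ext
  funext τ
  show Jd d (heckeDiagMatrix ℓ • τ) = Jd (ℓ * d) τ
  unfold Jd
  congr 1
  apply UpperHalfPlane.ext
  have hd : 0 < d := Nat.pos_of_ne_zero (NeZero.ne d)
  have hℓ : 0 < ℓ := Nat.pos_of_ne_zero (NeZero.ne ℓ)
  rw [infAff_coe hd one_pos, infAff_coe (Nat.mul_pos hℓ hd) one_pos, heckeDiagMatrix_smul_coe]
  push_cast
  ring

/-- `an` turns `β : FF N → FF (N ℓ)`, `q ↦ q^ℓ`, into precomposition with `τ ↦ ℓ τ`. -/
theorem an_beta (f : FF N) :
    an (N * ℓ) (heckeBetaBar Kbar N ℓ f)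
      = merGL (heckeDiagMatrix ℓ) (det_heckeDiagMatrix_pos ℓ) (an N f) := by
  have : (an (N * ℓ)).comp (heckeBetaBar Kbar N ℓ).toRingHom
      = ((merGL (heckeDiagMatrix ℓ) (det_heckeDiagMatrix_pos ℓ) : MerH →+* MerH)).comp (an N) := by
    apply ringHom_ext_FF
    · intro c
      show an (N * ℓ) (heckeBetaBar Kbar N ℓ (algebraMap Kbar (FF N) c))
        = merGL _ _ (an N (algebraMap Kbar (FF N) c))
      rw [AlgHom.commutes, an_algebraMap, an_algebraMap, merGL_algebraMap_const]
    · intro d _ hd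
      show an (N * ℓ) (heckeBetaBar Kbar N ℓ (jGen N d hd)) = merGL _ _ (an N (jGen N d hd))
      rw [beta_jGen, an_jGen, an_jGen, merGL_JM]
  exact RingHom.congr_fun this f

end Degeneracy

end Fermat.Agent.S29.H452

end
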