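import Fermat.Agent.S29.H452.NormAn
import Fermat.Prelude.Sol.S_ModularForm_heckeT_slash_eq_self_of_mem_Gamma0

/-!
# S29 / BR / NORM (helper452) — coset representatives of `Γ₀(N ℓ) \ Γ₀(N)` adapted to `heckeRep`

For a prime `ℓ ∤ N` and `x : OnePoint (ZMod ℓ)` we construct `γ_x, δ_x ∈ Γ₀(N)` with
`diag(ℓ,1) · γ_x = δ_x · heckeRep ℓ x` such that `γ_x γ_y⁻¹ ∈ Γ₀(N ℓ)` only for `x = y`.
-/

set_option autoImplicit false

noncomputable section

open ModularCurve UpperHalfPlane ModularForm Matrix.SpecialLinearGroup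
open scoped MatrixGroups
open P2MW.S_ModularForm_heckeT_slash_eq_self_of_mem_Gamma0.ModularForm.HeckeSlashInvariance

namespace Fermat.Agent.S29.H452

variable (N ℓ : ℕ) [NeZero N] [NeZero ℓ]

/-- The bottom row `(c, d)` of the representative `γ_x`. -/
def repRow : OnePoint (ZMod ℓ) → ℤ × ℤ
  | none => (0, 1)
  | some b => ((N : ℤ), (N : ℤ) * (b.val : ℤ) + (ℓ : ℤ))

omit [NeZero N] in
theorem exists_rep (hcop : Nat.Coprime N ℓ) (x : OnePoint (ZMod ℓ)) :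
    ∃ γ δ : SL(2, ℤ), γ 1 0 = (repRow N ℓ x).1 ∧ γ 1 1 = (repRow N ℓ x).2 ∧
      γ ∈ CongruenceSubgroup.Gamma0 N ∧ δ ∈ CongruenceSubgroup.Gamma0 N ∧
      heckeDiagMatrix ℓ * mapGL ℝ γ = mapGL ℝ δ * heckeRep ℓ x := by
  cases x with
  | infty =>
      refine ⟨1, 1, by simp [repRow], by simp [repRow], one_mem _, one_mem _, ?_⟩
      rw [heckeRep_infty, map_one, mul_one, one_mul]
  | coe b =>
      have hc : IsCoprime (N : ℤ) ((N : ℤ) * (b.val : ℤ) + (ℓ : ℤ)) := by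
        have h1 : IsCoprime (N : ℤ) (ℓ : ℤ) := Nat.isCoprime_iff_coprime.mpr hcop
        have := h1.add_mul_left_right (b.val : ℤ)
        rwa [add_comm] at this
      obtain ⟨s, t, hst⟩ := hc
      let γ : SL(2, ℤ) := ⟨!![t, -s; (N : ℤ), (N : ℤ) * (b.val : ℤ) + (ℓ : ℤ)], by
        rw [Matrix.det_fin_two_of]; linear_combination hst⟩
      have hγ10 : γ 1 0 = (N : ℤ) := rfl
      have hγ11 : γ 1 1 = (N : ℤ) * (b.val : ℤ) + (ℓ : ℤ) := rfl
      obtain ⟨δ, hδ, hmul⟩ := heckeDiagMatrix_mul_of_eq (NeZero.ne ℓ) γ b.val 1 (by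
        rw [hγ10, hγ11]; ring)
      refine ⟨γ, δ, hγ10, hγ11, ?_, ?_, ?_⟩
      · rw [CongruenceSubgroup.Gamma0_mem, hγ10]; simp
      · rw [CongruenceSubgroup.Gamma0_mem, hδ, hγ10]; simp
      · rw [heckeRep_coe]; exact hmul

/-- The chosen representatives `γ_x ∈ Γ₀(N)`. -/
def repγ (hcop : Nat.Coprime N ℓ) (x : OnePoint (ZMod ℓ)) : SL(2, ℤ) :=
  (exists_rep N ℓ hcop x).choose

/-- The chosen `δ_x ∈ Γ₀(N)` with `diag(ℓ,1) γ_x = δ_x heckeRep x`. -/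
def repδ (hcop : Nat.Coprime N ℓ) (x : OnePoint (ZMod ℓ)) : SL(2, ℤ) :=
  (exists_rep N ℓ hcop x).choose_spec.choose

variable {N ℓ}

omit [NeZero N] in
theorem repγ_spec (hcop : Nat.Coprime N ℓ) (x : OnePoint (ZMod ℓ)) :
    (repγ N ℓ hcop x) 1 0 = (repRow N ℓ x).1 ∧ (repγ N ℓ hcop x) 1 1 = (repRow N ℓ x).2 ∧
      repγ N ℓ hcop x ∈ CongruenceSubgroup.Gamma0 N ∧
      repδ N ℓ hcop x ∈ CongruenceSubgroup.Gamma0 N ∧
      heckeDiagMatrix ℓ * mapGL ℝ (repγ N ℓ hcop x) = mapGL ℝ (repδ N ℓ hcop x) * heckeRep ℓ x :=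
  (exists_rep N ℓ hcop x).choose_spec.choose_spec

omit [NeZero N] in
theorem repγ_mem (hcop : Nat.Coprime N ℓ) (x : OnePoint (ZMod ℓ)) :
    repγ N ℓ hcop x ∈ CongruenceSubgroup.Gamma0 N := (repγ_spec hcop x).2.2.1

omit [NeZero N] in
theorem repδ_mem (hcop : Nat.Coprime N ℓ) (x : OnePoint (ZMod ℓ)) :
    repδ N ℓ hcop x ∈ CongruenceSubgroup.Gamma0 N := (repγ_spec hcop x).2.2.2.1

omit [NeZero N] in
theorem repγ_mul (hcop : Nat.Coprime N ℓ) (x : OnePoint (ZMod ℓ)) :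
    heckeDiagMatrix ℓ * mapGL ℝ (repγ N ℓ hcop x) = mapGL ℝ (repδ N ℓ hcop x) * heckeRep ℓ x :=
  (repγ_spec hcop x).2.2.2.2

/-- The lower-left entry of `γ γ'⁻¹`. -/
theorem mul_inv_apply_one_zero (γ γ' : SL(2, ℤ)) :
    (γ * γ'⁻¹) 1 0 = γ 1 0 * γ' 1 1 - γ 1 1 * γ' 1 0 := by
  rw [Matrix.SpecialLinearGroup.coe_mul, Matrix.mul_apply, Fin.sum_univ_two,
    Matrix.SpecialLinearGroup.SL2_inv_expl]
  simp
  ring

/-- The representatives are pairwise inequivalent modulo `Γ₀(N ℓ)`. -/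
theorem repγ_injective (hℓ : ℓ.Prime) (hcop : Nat.Coprime N ℓ) {x y : OnePoint (ZMod ℓ)}
    (h : repγ N ℓ hcop x * (repγ N ℓ hcop y)⁻¹ ∈ CongruenceSubgroup.Gamma0 (N * ℓ)) : x = y := by
  have hdvd : ((N * ℓ : ℕ) : ℤ) ∣ (repγ N ℓ hcop x * (repγ N ℓ hcop y)⁻¹) 1 0 :=
    (ZMod.intCast_zmod_eq_zero_iff_dvd _ _).mp (CongruenceSubgroup.Gamma0_mem.mp h)
  rw [mul_inv_apply_one_zero, (repγ_spec hcop x).1, (repγ_spec hcop x).2.1,
    (repγ_spec hcop y).1, (repγ_spec hcop y).2.1] at hdvd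
  have hN0 : (N : ℤ) ≠ 0 := by exact_mod_cast NeZero.ne N
  have hℓ1 : ¬ (ℓ : ℤ) ∣ 1 := by
    intro h1
    have := Int.natCast_dvd_natCast.mp (by simpa using h1 : ((ℓ : ℕ) : ℤ) ∣ ((1 : ℕ) : ℤ))
    exact hℓ.one_lt.ne' (Nat.dvd_one.mp this)
  have hcopZ : IsCoprime (ℓ : ℤ) (N : ℤ) := (Nat.isCoprime_iff_coprime.mpr hcop).symm
  push_cast at hdvd
  cases x with
  | infty =>
      cases y with
      | infty => rfl
      | coe b =>
          exfalso
          simp only [repRow] at hdvd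
          -- N ℓ ∣ 0 * _ - 1 * N
          have h2 : (N : ℤ) * ℓ ∣ (N : ℤ) * (-1) := by
            convert hdvd using 1; ring
          have h3 := (mul_dvd_mul_iff_left hN0).mp h2
          exact hℓ1 ((dvd_neg (a := (ℓ : ℤ)) (b := 1)).mp h3)
  | coe a =>
      cases y with
      | infty =>
          exfalso
          simp only [repRow] at hdvd
          have h2 : (N : ℤ) * ℓ ∣ (N : ℤ) * 1 := by
            convert hdvd using 1; ring
          exact hℓ1 ((mul_dvd_mul_iff_left hN0).mp h2)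
      | coe b =>
          simp only [repRow] at hdvd
          have h2 : (N : ℤ) * ℓ ∣ (N : ℤ) * ((N : ℤ) * ((b.val : ℤ) - (a.val : ℤ))) := by
            convert hdvd using 1; ring
          have h3 := (mul_dvd_mul_iff_left hN0).mp h2
          have h4 : (ℓ : ℤ) ∣ (b.val : ℤ) - (a.val : ℤ) := hcopZ.dvd_of_dvd_mul_left h3
          have h5 : (((b.val : ℤ) - (a.val : ℤ) : ℤ) : ZMod ℓ) = 0 :=
            (ZMod.intCast_zmod_eq_zero_iff_dvd _ _).mpr h4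
          push_cast at h5
          rw [ZMod.natCast_zmod_val, ZMod.natCast_zmod_val] at h5
          have : b = a := sub_eq_zero.mp h5
          rw [this]

end Fermat.Agent.S29.H452

end
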