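import Fermat.Agent.S29.H452.NormCoset
import Fermat.Agent.S29.H455.NormEmb
import Fermat.Agent.S29.H455.KummerCorr
import Fermat.Agent.Lib.X0Branch.H997Branch
import Fermat.Agent.S20.H872.Index

/-!
# S29 / BR / NORM (helper452) — the norm along `α` as a product over the Hecke representatives

Main result (`an_normAlong_beta`): for a prime `ℓ ∤ N` and `f ∈ FF N`,
`an N (Norm_α (β f)) = ∏ x : OnePoint (ZMod ℓ), (an N f) ∘ heckeRep ℓ x`,
where `α, β : FF N → FF (N ℓ)` are the Prelude degeneracy maps (`heckeAlphaBar`, `heckeBetaBar`),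
`Norm_α` is the field norm along `α` (`H455.normAlong`), `an` is the analytic realisation and
`heckeRep ℓ x` are the Prelude's representatives `(ℓ 0; 0 1)`, `(1 b; 0 ℓ)`.
-/

set_option autoImplicit false

noncomputable section

open ModularCurve UpperHalfPlane ModularForm Matrix.SpecialLinearGroup AlgebraicCurve
  IntermediateField
open scoped MatrixGroups
open P2MW.S_ModularForm_heckeT_slash_eq_self_of_mem_Gamma0.ModularForm.HeckeSlashInvariance

namespace Fermat.Agent.S29.H452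

open Fermat.Agent.S24 Fermat.Agent.S24.H997 Fermat.Agent.S24.H624 Fermat.Agent.S24.H528
open Fermat.Agent.S29.H455

variable {N ℓ : ℕ} [NeZero N] [NeZero ℓ]

/-! ### The degree of `FF (N ℓ)` over `FF N` -/

theorem alpha_jF : heckeAlphaBar Kbar N ℓ (jF N) = jF (N * ℓ) := Subtype.ext rfl

theorem finrank_alpha (hℓ : ℓ.Prime) (hℓN : ¬ ℓ ∣ N) :
    letI := algebraAlong (heckeAlphaBar Kbar N ℓ)
    Module.finrank (FF N) (FF (N * ℓ)) = ℓ + 1 := by
  letI := algebraAlong (heckeAlphaBar Kbar N ℓ)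
  have hmap : (Kbar⟮jF N⟯).map (heckeAlphaBar Kbar N ℓ) = Kbar⟮jF (N * ℓ)⟯ := by
    rw [IntermediateField.adjoin_map, Set.image_singleton, alpha_jF]
  let e : ↥(Kbar⟮jF N⟯) ≃+* ↥(Kbar⟮jF (N * ℓ)⟯) :=
    (((Kbar⟮jF N⟯).equivMap (heckeAlphaBar Kbar N ℓ)).trans
      (IntermediateField.equivOfEq hmap)).toRingEquiv
  letI : Algebra ↥(Kbar⟮jF N⟯) (FF (N * ℓ)) :=
    ((heckeAlphaBar Kbar N ℓ).toRingHom.comp (algebraMap ↥(Kbar⟮jF N⟯) (FF N))).toAlgebra
  haveI : IsScalarTower ↥(Kbar⟮jF N⟯) (FF N) (FF (N * ℓ)) :=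
    IsScalarTower.of_algebraMap_eq (fun x => rfl)
  have h1 : Module.finrank ↥(Kbar⟮jF N⟯) (FF (N * ℓ))
      = Module.finrank ↥(Kbar⟮jF (N * ℓ)⟯) (FF (N * ℓ)) :=
    Algebra.finrank_eq_of_equiv_equiv e (RingEquiv.refl _) (by ext x; rfl)
  have h2 := Module.finrank_mul_finrank ↥(Kbar⟮jF N⟯) (FF N) (FF (N * ℓ))
  rw [h1, Fermat.Agent.Lib.X0Branch.finrank_FF_eq_psi, Fermat.Agent.Lib.X0Branch.finrank_FF_eq_psi,
    Fermat.Agent.S20.H872.dedekindPsi_mul_prime_of_not_dvd (NeZero.ne N) hℓ hℓN] at h2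
  have hpos : 0 < dedekindPsi N := by
    rw [← Fermat.Agent.Lib.X0Branch.finrank_FF_eq_psi]
    exact Module.finrank_pos
  have h3 : dedekindPsi N * Module.finrank (FF N) (FF (N * ℓ)) = dedekindPsi N * (ℓ + 1) := by
    rw [h2]; ring
  exact Nat.eq_of_mul_eq_mul_left hpos h3

theorem finiteDimensional_alpha (hℓ : ℓ.Prime) (hℓN : ¬ ℓ ∣ N) :
    letI := algebraAlong (heckeAlphaBar Kbar N ℓ)
    FiniteDimensional (FF N) (FF (N * ℓ)) := by
  letI := algebraAlong (heckeAlphaBar Kbar N ℓ)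
  apply Module.finite_of_finrank_pos
  rw [finrank_alpha hℓ hℓN]
  exact Nat.succ_pos _

/-! ### The embeddings `τ_x` -/

theorem det_mapGL_pos (γ : SL(2, ℤ)) : 0 < (mapGL ℝ γ).det.val := det_coe_SL_pos γ

theorem merGL_mapGL (γ : SL(2, ℤ)) (F : MerH) :
    merGL (mapGL ℝ γ) (det_mapGL_pos γ) F = γ⁻¹ • F := merGL_SL γ F

theorem det_heckeRep_pos (x : OnePoint (ZMod ℓ)) : 0 < (heckeRep ℓ x).det.val := by
  cases x with
  | infty => exact det_heckeDiagMatrix_pos ℓ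
  | coe b => exact det_heckeMatrix_pos ℓ b.val

variable (hcop : Nat.Coprime N ℓ)

/-- The embedding `g ↦ (an g) ∘ γ_x` of `FF (N ℓ)` into `MerH`. -/
def tauEmb (x : OnePoint (ZMod ℓ)) : FF (N * ℓ) →+* MerH :=
  ((merGL (mapGL ℝ (repγ N ℓ hcop x)) (det_mapGL_pos _) : MerH ≃+* MerH) : MerH →+* MerH).comp
    (an (N * ℓ))

theorem tauEmb_apply (x : OnePoint (ZMod ℓ)) (g : FF (N * ℓ)) :
    tauEmb hcop x g = merGL (mapGL ℝ (repγ N ℓ hcop x)) (det_mapGL_pos _) (an (N * ℓ) g) := rfl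

theorem tauEmb_alpha (x : OnePoint (ZMod ℓ)) (f : FF N) :
    tauEmb hcop x (heckeAlphaBar Kbar N ℓ f) = an N f := by
  rw [tauEmb_apply, an_alpha]
  have := merGL_mapGL (repγ N ℓ hcop x) (an N f)
  rw [this]
  exact an_smul_of_mem N f (inv_mem (repγ_mem hcop x))

theorem tauEmb_beta (x : OnePoint (ZMod ℓ)) (f : FF N) :
    tauEmb hcop x (heckeBetaBar Kbar N ℓ f)
      = merGL (heckeRep ℓ x) (det_heckeRep_pos x) (an N f) := by
  rw [tauEmb_apply, an_beta,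
    ← merGL_mul (heckeDiagMatrix ℓ) (mapGL ℝ (repγ N ℓ hcop x)) (det_heckeDiagMatrix_pos ℓ)
      (det_mapGL_pos _),
    merGL_congr (repγ_mul hcop x) _
      (det_mul_pos (det_mapGL_pos (repδ N ℓ hcop x)) (det_heckeRep_pos x)),
    merGL_mul (mapGL ℝ (repδ N ℓ hcop x)) (heckeRep ℓ x) (det_mapGL_pos _) (det_heckeRep_pos x)]
  congr 1
  have := merGL_mapGL (repδ N ℓ hcop x) (an N f)
  rw [this]
  exact an_smul_of_mem N f (inv_mem (repδ_mem hcop x))

theorem tauEmb_injective (hℓ : ℓ.Prime) : Function.Injective (tauEmb (N := N) hcop) := by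
  intro x y hxy
  apply repγ_injective hℓ hcop
  apply Jd_distinct (N * ℓ)
  have h1 := RingHom.congr_fun hxy (jGen (N * ℓ) (N * ℓ) dvd_rfl)
  rw [tauEmb_apply, tauEmb_apply, an_jGen] at h1
  unfold JM at h1
  rw [merGL_algebraMap, merGL_algebraMap] at h1
  have h2 := IsFractionRing.injective holoRing MerH h1
  have h3 : ∀ τ : ℍ, Jd (N * ℓ) (repγ N ℓ hcop x • τ) = Jd (N * ℓ) (repγ N ℓ hcop y • τ) := by
    intro τ
    exact congrFun (congrArg Subtype.val h2) τ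
  intro τ
  rw [mul_smul, h3, smul_inv_smul]

/-! ### The norm formula -/

/-- **Norm formula**: `an N (Norm_α g) = ∏_x (an g) ∘ γ_x`. -/
theorem an_normAlong (hℓ : ℓ.Prime) (g : FF (N * ℓ)) :
    an N (normAlong (heckeAlphaBar Kbar N ℓ) g) = ∏ x : OnePoint (ZMod ℓ), tauEmb hcop x g := by
  have hℓN : ¬ ℓ ∣ N := fun h => by
    have := Nat.Coprime.eq_one_of_dvd hcop.symm h
    exact hℓ.one_lt.ne' this
  letI := algebraAlong (heckeAlphaBar Kbar N ℓ)
  haveI := finiteDimensional_alpha hℓ hℓN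
  have hcard : Fintype.card (OnePoint (ZMod ℓ)) = Module.finrank (FF N) (FF (N * ℓ)) := by
    rw [finrank_alpha hℓ hℓN]
    show Fintype.card (Option (ZMod ℓ)) = ℓ + 1
    rw [Fintype.card_option, ZMod.card]
  exact norm_eq_prod_of_injective (an N) (tauEmb hcop)
    (fun x => RingHom.ext fun f => tauEmb_alpha hcop x f) (tauEmb_injective hcop hℓ) hcard g

/-- **Hecke norm formula**: `an N (Norm_α (β f)) = ∏_x (an N f) ∘ heckeRep ℓ x`. -/
theorem an_normAlong_beta (hℓ : ℓ.Prime) (hℓN : ¬ ℓ ∣ N) (f : FF N) :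
    an N (normAlong (heckeAlphaBar Kbar N ℓ) (heckeBetaBar Kbar N ℓ f))
      = ∏ x : OnePoint (ZMod ℓ), merGL (heckeRep ℓ x) (det_heckeRep_pos x) (an N f) := by
  have hcop : Nat.Coprime N ℓ := ((Nat.Prime.coprime_iff_not_dvd hℓ).mpr hℓN).symm
  rw [an_normAlong hcop hℓ]
  exact Finset.prod_congr rfl fun x _ => tauEmb_beta hcop x f

end Fermat.Agent.S29.H452

end
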